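import Mathlib

set_option autoImplicit false

namespace Fermat.Agent.S57

open MvPowerSeries RingTheory.Sequence

section coord

variable {σ : Type} {R : Type} [CommRing R]

/-- The ideal of power series all of whose monomials involve a variable from `J`. -/
def coordIdeal (J : Finset σ) : Ideal (MvPowerSeries σ R) where
  carrier := {f | ∀ m : σ →₀ ℕ, (∀ j ∈ J, m j = 0) → coeff m f = 0}
  add_mem' := by
    intro f g hf hg m hm
    simp [hf m hm, hg m hm]
  zero_mem' := by
    intro m _
    simp
  smul_mem' := by
    classical
    intro c f hf m hm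
    rw [smul_eq_mul, coeff_mul]
    refine Finset.sum_eq_zero fun p hp => ?_
    have hp' : p.1 + p.2 = m := Finset.HasAntidiagonal.mem_antidiagonal.mp hp
    have : coeff p.2 f = 0 := by
      apply hf
      intro j hj
      have h1 := hm j hj
      rw [← hp'] at h1
      simp only [Finsupp.coe_add, Pi.add_apply, Nat.add_eq_zero_iff] at h1
      exact h1.2
    rw [this, mul_zero]

theorem mem_coordIdeal {J : Finset σ} {f : MvPowerSeries σ R} :
    f ∈ coordIdeal J ↔ ∀ m : σ →₀ ℕ, (∀ j ∈ J, m j = 0) → coeff m f = 0 := Iff.rfl

theorem X_mem_coordIdeal {J : Finset σ} {i : σ} (hi : i ∈ J) :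
    (X i : MvPowerSeries σ R) ∈ coordIdeal J := by
  classical
  intro m hm
  rw [coeff_X, if_neg]
  intro h
  have := hm i hi
  rw [h] at this
  simp at this

theorem coordIdeal_mono {J J' : Finset σ} (h : J ⊆ J') :
    (coordIdeal J : Ideal (MvPowerSeries σ R)) ≤ coordIdeal J' := by
  intro f hf m hm
  exact hf m fun j hj => hm j (h hj)

theorem coordIdeal_le_span (J : Finset σ) :
    (coordIdeal J : Ideal (MvPowerSeries σ R)) ≤ Ideal.span (X '' (J : Set σ)) := by
  classical
  induction J using Finset.induction_on with
  | empty =>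
    intro f hf
    have : f = 0 := by
      ext m
      simpa using hf m (by simp)
    rw [this]
    exact Ideal.zero_mem _
  | insert i J hi ih =>
    intro f hf
    let g : MvPowerSeries σ R := fun m => coeff (m + Finsupp.single i 1) f
    have hg : ∀ m, coeff m g = coeff (m + Finsupp.single i 1) f := fun m => rfl
    have h1 : f - X i * g ∈ coordIdeal J := by
      intro m hm
      rw [map_sub, X_def, coeff_monomial_mul]
      by_cases hmi : m i = 0
      · have hle : ¬ (Finsupp.single i 1 ≤ m) := by
          intro hle
          have := hle i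
          simp [hmi] at this
        rw [if_neg hle, sub_zero]
        apply hf
        intro j hj
        rcases Finset.mem_insert.mp hj with rfl | hj'
        · exact hmi
        · exact hm j hj'
      · have hle : Finsupp.single i 1 ≤ m := by
          intro j
          by_cases hji : j = i
          · subst hji
            simp only [Finsupp.single_eq_same]
            omega
          · simp [Finsupp.single_eq_of_ne hji]
        rw [if_pos hle, one_mul, hg, tsub_add_cancel_of_le hle, sub_self]
    have h2 : f = (f - X i * g) + X i * g := by ring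
    rw [h2]
    refine Ideal.add_mem _ ?_ ?_
    · exact Ideal.span_mono (Set.image_mono (by simp)) (ih h1)
    · exact Ideal.mul_mem_right _ _ (Ideal.subset_span ⟨i, by simp, rfl⟩)

theorem coordIdeal_eq_span (J : Finset σ) :
    (coordIdeal J : Ideal (MvPowerSeries σ R)) = Ideal.span (X '' (J : Set σ)) := by
  refine le_antisymm (coordIdeal_le_span J) ?_
  rw [Ideal.span_le]
  rintro _ ⟨i, hi, rfl⟩
  exact X_mem_coordIdeal (by exact_mod_cast hi)

theorem mem_coordIdeal_of_X_mul_mem {J : Finset σ} {i : σ} (hi : i ∉ J)
    {f : MvPowerSeries σ R} (hf : X i * f ∈ coordIdeal J) : f ∈ coordIdeal J := by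
  classical
  intro m hm
  have h1 : coeff (Finsupp.single i 1 + m) (X i * f) = 0 := by
    apply hf
    intro j hj
    have hji : j ≠ i := fun h => hi (h ▸ hj)
    simp [Finsupp.single_eq_of_ne hji, hm j hj]
  rw [X_def, coeff_add_monomial_mul, one_mul] at h1
  exact h1

theorem mem_coordIdeal_of_C_mul_mem {J : Finset σ} {a : R} (ha : ∀ b : R, a * b = 0 → b = 0)
    {f : MvPowerSeries σ R} (hf : C a * f ∈ coordIdeal J) : f ∈ coordIdeal J := by
  intro m hm
  have h1 := hf m hm
  rw [coeff_C_mul] at h1
  exact ha _ h1

/-- The variables followed by a nonzerodivisor constant form a weakly regular sequence. -/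
theorem isWeaklyRegular_X_C (l : List σ) (hl : l.Nodup) {a : R} (ha : ∀ b : R, a * b = 0 → b = 0) :
    IsWeaklyRegular (MvPowerSeries σ R) (l.map (X : σ → MvPowerSeries σ R) ++ [C a]) := by
  classical
  rw [isWeaklyRegular_iff]
  intro i hi
  rw [isSMulRegular_quotient_iff_mem_of_smul_mem]
  intro f hf
  have key : ∀ k ≤ l.length,
      (Ideal.ofList ((l.map (X : σ → MvPowerSeries σ R) ++ [C a]).take k) • ⊤ :
        Submodule (MvPowerSeries σ R) (MvPowerSeries σ R)) = coordIdeal (l.take k).toFinset := by
    intro k hk
    rw [List.take_append_of_le_length (by simpa using hk), smul_eq_mul,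
      Ideal.mul_top, coordIdeal_eq_span]
    have hset : {r | r ∈ (l.map (X : σ → MvPowerSeries σ R)).take k} =
        (X : σ → MvPowerSeries σ R) '' ((l.take k).toFinset : Set σ) := by
      ext s
      simp [← List.map_take]
    rw [Ideal.ofList, hset]
  have hi' : i ≤ l.length := by
    simp at hi
    omega
  rw [key i hi'] at hf ⊢
  rcases Nat.lt_or_eq_of_le hi' with hlt | rfl
  · have hget : (l.map (X : σ → MvPowerSeries σ R) ++ [C a])[i] = X l[i] := by
      rw [List.getElem_append_left (by simpa using hlt), List.getElem_map]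
    rw [hget, smul_eq_mul] at hf
    refine mem_coordIdeal_of_X_mul_mem ?_ hf
    intro hmem
    rw [List.mem_toFinset, List.mem_take_iff_getElem] at hmem
    obtain ⟨j, hj, hjeq⟩ := hmem
    have hj' : j < i := by omega
    have := (hl.getElem_inj_iff).mp hjeq
    omega
  · have hget : (l.map (X : σ → MvPowerSeries σ R) ++ [C a])[l.length] = C a := by simp
    rw [hget, smul_eq_mul] at hf
    exact mem_coordIdeal_of_C_mul_mem ha hf

end coord

/-- The maximal ideal of `𝒪⟦X₁, …, X_r⟧` over a local ring with principal maximal ideal `(ϖ)`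
is generated by the variables and `ϖ`. -/
theorem exists_generators_maximalIdeal {σ : Type} [Fintype σ] {𝒪 : Type} [CommRing 𝒪]
    [IsLocalRing 𝒪] {ϖ : 𝒪} (hϖ : IsLocalRing.maximalIdeal 𝒪 = Ideal.span {ϖ}) :
    ∃ G : Finset (MvPowerSeries σ 𝒪), G.card ≤ Fintype.card σ + 1 ∧
      Ideal.span (G : Set (MvPowerSeries σ 𝒪)) =
        IsLocalRing.maximalIdeal (MvPowerSeries σ 𝒪) := by
  classical
  refine ⟨insert (C ϖ) (Finset.univ.image X), ?_, ?_⟩
  · calc (insert (C ϖ) (Finset.univ.image (X : σ → MvPowerSeries σ 𝒪))).card
        ≤ (Finset.univ.image (X : σ → MvPowerSeries σ 𝒪)).card + 1 := Finset.card_insert_le _ _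
      _ ≤ Fintype.card σ + 1 := by
          gcongr
          exact Finset.card_image_le
  · apply le_antisymm
    · rw [Ideal.span_le]
      intro g hg
      simp only [Finset.coe_insert, Finset.coe_image, Finset.coe_univ, Set.image_univ,
        Set.mem_insert_iff, Set.mem_range] at hg
      rcases hg with rfl | ⟨i, rfl⟩
      · rw [SetLike.mem_coe, IsLocalRing.mem_maximalIdeal, mem_nonunits_iff,
          MvPowerSeries.isUnit_iff_constantCoeff, constantCoeff_C]
        have h1 : ϖ ∈ IsLocalRing.maximalIdeal 𝒪 := by
          rw [hϖ]; exact Ideal.mem_span_singleton_self ϖ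
        exact h1
      · rw [SetLike.mem_coe, IsLocalRing.mem_maximalIdeal, mem_nonunits_iff,
          MvPowerSeries.isUnit_iff_constantCoeff, constantCoeff_X]
        exact not_isUnit_zero
    · intro f hf
      rw [IsLocalRing.mem_maximalIdeal, mem_nonunits_iff,
        MvPowerSeries.isUnit_iff_constantCoeff] at hf
      have hf' : constantCoeff f ∈ IsLocalRing.maximalIdeal 𝒪 := hf
      rw [hϖ, Ideal.mem_span_singleton'] at hf'
      obtain ⟨a, ha⟩ := hf'
      have h1 : f - C ϖ * C a ∈ coordIdeal (Finset.univ : Finset σ) := by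
        intro m hm
        have hm0 : m = 0 := by
          ext j
          exact hm j (Finset.mem_univ j)
        subst hm0
        rw [map_sub, coeff_C_mul, coeff_zero_C, coeff_zero_eq_constantCoeff_apply, ← ha]
        ring
      have h2 : f = (f - C ϖ * C a) + C ϖ * C a := by ring
      rw [h2]
      refine Ideal.add_mem _ ?_ ?_
      · rw [coordIdeal_eq_span] at h1
        refine Ideal.span_mono ?_ h1
        intro g hg
        simp only [Finset.coe_univ, Set.image_univ, Set.mem_range] at hg
        simp only [Finset.coe_insert, Finset.coe_image, Finset.coe_univ, Set.image_univ,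
          Set.mem_insert_iff, Set.mem_range]
        exact Or.inr hg
      · exact Ideal.mul_mem_right _ _ (Ideal.subset_span (by simp))

end Fermat.Agent.S57
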