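import Mathlib

set_option autoImplicit false
set_option linter.style.haveILetI false

namespace Fermat.Agent.S57

open IsLocalRing RingTheory.Sequence CategoryTheory Abelian

/-- If `N` has a regular sequence of length `n + 1` inside the maximal ideal and `x` is an
`N`-regular element of the maximal ideal, then `N ⧸ x N` has a regular sequence of length `n`
inside the maximal ideal. (Via the Rees theorem.) -/
theorem exists_isRegular_quotSMulTop {A : Type} [CommRing A] [IsLocalRing A] [IsNoetherianRing A]
    {N : Type} [AddCommGroup N] [Module A N] [Module.Finite A N] (n : ℕ)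
    (h : ∃ rs : List A, rs.length = n + 1 ∧ (∀ r ∈ rs, r ∈ maximalIdeal A) ∧ IsRegular N rs)
    {x : A} (hx : x ∈ maximalIdeal A) (reg : IsSMulRegular N x) :
    ∃ rs : List A, rs.length = n ∧ (∀ r ∈ rs, r ∈ maximalIdeal A) ∧
      IsRegular (QuotSMulTop x N) rs := by
  obtain ⟨rs, hlen, hmem, hreg⟩ := h
  have hN : Nontrivial N := hreg.nontrivial
  have smul_lt : maximalIdeal A • (⊤ : Submodule A N) < ⊤ :=
    (Submodule.top_ne_ideal_smul_of_le_jacobson_annihilator
      (maximalIdeal_le_jacobson _)).symm.lt_top
  have h_ext : ∀ i < n + 1, Subsingleton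
      (Ext (ModuleCat.of A (Shrink.{0} (A ⧸ maximalIdeal A))) (ModuleCat.of A N) i) := by
    have key := (ModuleCat.exists_isRegular_tfae (maximalIdeal A) (n + 1) (ModuleCat.of A N)
      smul_lt).out 3 1
    exact key.mp ⟨rs, hlen, hmem, hreg⟩
  have reg' : IsSMulRegular (ModuleCat.of A N) x := reg
  have h_ext' : ∀ i < n, Subsingleton
      (Ext (ModuleCat.of A (Shrink.{0} (A ⧸ maximalIdeal A)))
        (ModuleCat.of A (QuotSMulTop x N)) i) := by
    intro i hi
    have zero1 := AddCommGrpCat.isZero_of_iff_subsingleton.mpr (h_ext i (by omega))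
    have zero2 := AddCommGrpCat.isZero_of_iff_subsingleton.mpr (h_ext (i + 1) (by omega))
    exact AddCommGrpCat.subsingleton_of_isZero <| ShortComplex.Exact.isZero_of_both_zeros
      ((Ext.covariant_sequence_exact₃' _ reg'.smulShortComplex_shortExact) i (i + 1) rfl)
      (zero1.eq_zero_of_src _) (zero2.eq_zero_of_tgt _)
  have hN' : Nontrivial (QuotSMulTop x N) := nontrivial_quotSMulTop_of_mem_maximalIdeal N hx
  have smul_lt' : maximalIdeal A • (⊤ : Submodule A (QuotSMulTop x N)) < ⊤ :=
    (Submodule.top_ne_ideal_smul_of_le_jacobson_annihilator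
      (maximalIdeal_le_jacobson _)).symm.lt_top
  have key' := (ModuleCat.exists_isRegular_tfae (maximalIdeal A) n
    (ModuleCat.of A (QuotSMulTop x N)) smul_lt').out 1 3
  exact key'.mp h_ext'

/-- Exchange lemma: if `x ∈ 𝔪 \ 𝔪 ^ 2` and `G` generates `𝔪`, then the maximal ideal of
`A ⧸ (x)` is generated by fewer than `G.card` elements. -/
theorem exists_generators_quotient {A : Type} [CommRing A] [IsLocalRing A] {x : A}
    [IsLocalRing (A ⧸ Ideal.span {x})]
    (G : Finset A) (hspan : Ideal.span (G : Set A) = maximalIdeal A)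
    (hxm : x ∈ maximalIdeal A) (hx2 : x ∉ maximalIdeal A ^ 2) :
    ∃ G' : Finset (A ⧸ Ideal.span {x}), G'.card + 1 ≤ G.card ∧
      Ideal.span (G' : Set (A ⧸ Ideal.span {x})) = maximalIdeal (A ⧸ Ideal.span {x}) := by
  classical
  have hxG : x ∈ Submodule.span A (G : Set A) := by rw [← hspan] at hxm; exact hxm
  obtain ⟨f, -, hf⟩ := Submodule.mem_span_finset.mp hxG
  -- some coefficient is a unit
  obtain ⟨g0, hg0, hu⟩ : ∃ g0 ∈ G, IsUnit (f g0) := by
    by_contra hcon
    push Not at hcon
    apply hx2
    rw [← hf, pow_two]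
    refine Ideal.sum_mem _ fun g hg => ?_
    rw [smul_eq_mul]
    exact Ideal.mul_mem_mul (hcon g hg) (by rw [← hspan]; exact Ideal.subset_span hg)
  let q := Ideal.Quotient.mk (Ideal.span {x})
  refine ⟨(G.erase g0).image q, ?_, ?_⟩
  · calc ((G.erase g0).image q).card + 1 ≤ (G.erase g0).card + 1 := by
          gcongr; exact Finset.card_image_le
      _ = G.card := Finset.card_erase_add_one hg0
  · have hmax : maximalIdeal (A ⧸ Ideal.span {x}) = Ideal.span (q '' (G : Set A)) := by
      rw [← IsLocalRing.map_maximalIdeal_of_surjective q Ideal.Quotient.mk_surjective, ← hspan,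
        Ideal.map_span]
    rw [hmax, Finset.coe_image]
    apply le_antisymm
    · exact Ideal.span_mono (Set.image_mono (by exact_mod_cast Finset.erase_subset _ _))
    · rw [Ideal.span_le]
      rintro _ ⟨g, hg, rfl⟩
      by_cases hgg : g = g0
      · subst hgg
        have hqx : q x = 0 :=
          Ideal.Quotient.eq_zero_iff_mem.mpr (Ideal.mem_span_singleton_self x)
        have hsum : q (f g) * q g = - ∑ g' ∈ G.erase g, q (f g') * q g' := by
          have h1 := congrArg q hf
          rw [hqx, map_sum, ← Finset.add_sum_erase _ _ hg] at h1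
          simp only [smul_eq_mul, map_mul] at h1
          linear_combination h1
        obtain ⟨u, hu'⟩ := hu
        have h2 : q g = q (↑u⁻¹) * (q (f g) * q g) := by
          rw [← mul_assoc, ← map_mul, ← hu', Units.inv_mul, map_one, one_mul]
        rw [SetLike.mem_coe, h2, hsum]
        apply Ideal.mul_mem_left
        rw [neg_mem_iff]
        exact Ideal.sum_mem _ fun g' hg' =>
          Ideal.mul_mem_left _ _ (Ideal.subset_span ⟨g', by exact_mod_cast hg', rfl⟩)
      · exact Ideal.subset_span ⟨g, by exact_mod_cast Finset.mem_erase.mpr ⟨hgg, hg⟩, rfl⟩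

/-- A finitely generated module over a noetherian local ring whose maximal ideal is generated by
`n` elements, admitting a regular sequence of length `n` inside the maximal ideal, is free.
(Maximal Cohen-Macaulay modules over regular local rings are free.) -/
theorem free_of_isRegular (n : ℕ) :
    ∀ (A : Type) [CommRing A] [IsLocalRing A] [IsNoetherianRing A]
      (N : Type) [AddCommGroup N] [Module A N] [Module.Finite A N],
      (∃ G : Finset A, G.card ≤ n ∧ Ideal.span (G : Set A) = maximalIdeal A) →
      (∃ rs : List A, rs.length = n ∧ (∀ r ∈ rs, r ∈ maximalIdeal A) ∧ IsRegular N rs) →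
      Module.Free A N := by
  induction n with
  | zero =>
    intro A _ _ _ N _ _ _ ⟨G, hG, hspan⟩ _
    have hG' : G = ∅ := Finset.card_eq_zero.mp (Nat.le_zero.mp hG)
    have hbot : maximalIdeal A = ⊥ := by rw [← hspan, hG']; simp
    have hf : IsField A := IsLocalRing.isField_iff_maximalIdeal_eq.mpr hbot
    letI := hf.toField
    infer_instance
  | succ n ih =>
    intro A _ _ _ N _ _ _ ⟨G, hG, hspan⟩ hrs
    obtain ⟨rs, hlen, hmem, hreg⟩ := hrs
    have hN : Nontrivial N := hreg.nontrivial
    obtain ⟨y, rs', rfl⟩ : ∃ y rs', rs = y :: rs' := by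
      cases rs with
      | nil => simp at hlen
      | cons y rs' => exact ⟨y, rs', rfl⟩
    have hy : y ∈ maximalIdeal A := hmem y (by simp)
    have hyreg : IsSMulRegular N y := ((isRegular_cons_iff N y rs').mp hreg).1
    -- the maximal ideal is not contained in its square
    have hm2 : ¬ (maximalIdeal A ≤ maximalIdeal A ^ 2) := by
      intro hle
      have hbot : maximalIdeal A = ⊥ := by
        apply Submodule.eq_bot_of_le_smul_of_le_jacobson_bot (maximalIdeal A) (maximalIdeal A)
          (IsNoetherian.noetherian _)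
        · rw [smul_eq_mul, ← pow_two]; exact hle
        · exact (IsLocalRing.jacobson_eq_maximalIdeal ⊥ bot_ne_top).ge
      have hy0 : y = 0 := by simpa [hbot] using hy
      obtain ⟨a, b, hab⟩ := exists_pair_ne N
      exact hab (hyreg (by simp [hy0]))
    -- the maximal ideal is not contained in any associated prime of `N`
    have hass : ∀ P ∈ associatedPrimes A N, ¬ (maximalIdeal A ≤ P) := by
      intro P hP hle
      have : y ∈ ⋃ p ∈ associatedPrimes A N, (p : Set A) := Set.mem_biUnion hP (hle hy)
      rw [biUnion_associatedPrimes_eq_compl_regular] at this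
      exact this hyreg
    -- prime avoidance
    obtain ⟨x, hxm, hx2, hxreg⟩ :
        ∃ x ∈ maximalIdeal A, x ∉ maximalIdeal A ^ 2 ∧ IsSMulRegular N x := by
      classical
      let s : Finset (Ideal A) :=
        insert (maximalIdeal A ^ 2) (associatedPrimes.finite A N).toFinset
      have hprime : ∀ i ∈ s, i ≠ maximalIdeal A ^ 2 → i ≠ maximalIdeal A ^ 2 →
          (id i : Ideal A).IsPrime := by
        intro P hP hne _
        have hP' : P ∈ associatedPrimes A N := by
          simpa [s, hne] using hP
        exact hP'.isPrime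
      have key := (Ideal.subset_union_prime (s := s) (f := id) (maximalIdeal A ^ 2)
        (maximalIdeal A ^ 2) hprime (I := maximalIdeal A)).not.mpr (by
          rintro ⟨P, hP, hle⟩
          rcases Finset.mem_insert.mp hP with rfl | hP'
          · exact hm2 hle
          · exact hass P (by simpa using hP') hle)
      rw [Set.not_subset] at key
      obtain ⟨x, hx, hxn⟩ := key
      refine ⟨x, hx, ?_, ?_⟩
      · intro h2
        apply hxn
        simp only [Set.mem_iUnion]
        exact ⟨_, Finset.mem_insert_self _ _, h2⟩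
      · by_contra hnr
        have hx' : x ∈ ⋃ p ∈ associatedPrimes A N, (p : Set A) := by
          rw [biUnion_associatedPrimes_eq_compl_regular]; exact hnr
        simp only [Set.mem_iUnion] at hx'
        obtain ⟨P, hP, hxP⟩ := hx'
        apply hxn
        simp only [Set.mem_iUnion]
        exact ⟨P, Finset.mem_insert_of_mem (by simpa using hP), hxP⟩
    -- pass to the quotient
    have hxtop : Ideal.span {x} ≠ ⊤ := by
      rw [Ne, Ideal.span_singleton_eq_top]
      exact hxm
    haveI : Nontrivial (A ⧸ Ideal.span {x}) := Ideal.Quotient.nontrivial_iff.mpr hxtop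
    haveI : IsLocalRing (A ⧸ Ideal.span {x}) :=
      IsLocalRing.of_surjective' (Ideal.Quotient.mk _) Ideal.Quotient.mk_surjective
    haveI : Module.Finite (A ⧸ Ideal.span {x}) (QuotSMulTop x N) :=
      Module.Finite.of_restrictScalars_finite A _ _
    haveI : Nontrivial (QuotSMulTop x N) := nontrivial_quotSMulTop_of_mem_maximalIdeal N hxm
    have hfree' : Module.Free (A ⧸ Ideal.span {x}) (QuotSMulTop x N) := by
      apply ih (A ⧸ Ideal.span {x}) (QuotSMulTop x N)
      · obtain ⟨G', hG', hspan'⟩ := exists_generators_quotient G hspan hxm hx2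
        exact ⟨G', by omega, hspan'⟩
      · obtain ⟨rs2, hlen2, hmem2, hreg2⟩ :=
          exists_isRegular_quotSMulTop n ⟨y :: rs', hlen, hmem, hreg⟩ hxm hxreg
        have hmem3 : ∀ r ∈ rs2.map (algebraMap A (A ⧸ Ideal.span {x})),
            r ∈ maximalIdeal (A ⧸ Ideal.span {x}) := by
          intro r hr
          obtain ⟨a, ha, rfl⟩ := List.mem_map.mp hr
          rw [← IsLocalRing.map_maximalIdeal_of_surjective (Ideal.Quotient.mk (Ideal.span {x}))
            Ideal.Quotient.mk_surjective]
          exact Ideal.mem_map_of_mem _ (hmem2 a ha)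
        refine ⟨rs2.map (algebraMap A (A ⧸ Ideal.span {x})), by simpa using hlen2, hmem3, ?_⟩
        exact IsRegular.of_isWeaklyRegular_of_mem_maximalIdeal _ hmem3
          ((isWeaklyRegular_map_algebraMap_iff _ _ rs2).mpr hreg2.toIsWeaklyRegular)
    haveI : Module.FinitePresentation A N := Module.finitePresentation_of_finite A N
    exact (Module.free_quotSMulTop_iff_free A N
      ((IsLocalRing.jacobson_eq_maximalIdeal ⊥ bot_ne_top).ge hxm) hxreg).mp hfree'

end Fermat.Agent.S57
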